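import Fermat.Agent.A2.H372.NodeLoc
import Fermat.Agent.A2.H609.Node

/-!
# A2 / NODE-LOC + purity : purity at every closed point of a semistable chart (helper372)

`purity_at_closed_point` : `B` a noetherian integrally closed domain (the chart), `p₁ p₂` the two
components (`p₁ ⊓ p₂ = (w)`, `B ⧸ pᵢ` Dedekind, incomparable, `p₁ ⊔ p₂` radical), `n` a prime
(closed point) containing `w`, `pᵢ ≠ n`, `O = Localization.AtPrime n`.
For `u ∈ O` with

* `hu`  : `u ∉ pᵢ O` for the components through `n`,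
* `H1`  : `m ∣ ord_𝔓 u` at the horizontal primes (`∃ f r, r ∉ 𝔓 ∧ f ^ m = u * r`),
* `H2`  : the restriction of `u` to each component through `n` is `unit × m`-th power,

we get `u = ε * f ^ m` with `ε ∈ Oˣ`.  This is `A2.H609.exists_unit_mul_pow_of_node` /
`exists_unit_mul_pow_of_smooth` fed by `node_local_data` / `smooth_local_data`: the consumer
(LOCFACT) never has to look at the local structure of the special fibre.
-/

set_option autoImplicit false

namespace Fermat.Agent.A2.H372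

open Ideal

variable {B : Type*} [CommRing B] [IsDomain B] [IsIntegrallyClosed B] [IsNoetherianRing B]

/-- **Purity at every closed point of the special fibre of a semistable chart.** -/
theorem purity_at_closed_point {p₁ p₂ n : Ideal B} [p₁.IsPrime] [p₂.IsPrime] [n.IsPrime]
    [IsDedekindDomain (B ⧸ p₁)] [IsDedekindDomain (B ⧸ p₂)]
    {w : B} (hw0 : w ≠ 0) (hinf : p₁ ⊓ p₂ = Ideal.span {w})
    (h₁₂ : ¬ p₁ ≤ p₂) (h₂₁ : ¬ p₂ ≤ p₁) (htr : (p₁ ⊔ p₂).IsRadical)
    (hwn : w ∈ n) (hn₁ : p₁ ≠ n) (hn₂ : p₂ ≠ n)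
    {u : Localization.AtPrime n} {m : ℕ} (hm : m ≠ 0)
    (hu₁ : p₁ ≤ n → u ∉ p₁.map (algebraMap B (Localization.AtPrime n)))
    (hu₂ : p₂ ≤ n → u ∉ p₂.map (algebraMap B (Localization.AtPrime n)))
    (H1 : ∀ 𝔓 : Ideal (Localization.AtPrime n), 𝔓.IsPrime → u ∈ 𝔓 →
      algebraMap B (Localization.AtPrime n) w ∉ 𝔓 →
        ∃ f r : Localization.AtPrime n, r ∉ 𝔓 ∧ f ^ m = u * r)
    (H2₁ : p₁ ≤ n → ∃ v : Localization.AtPrime n ⧸ p₁.map (algebraMap B (Localization.AtPrime n)),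
      Associated (v ^ m) (Ideal.Quotient.mk _ u))
    (H2₂ : p₂ ≤ n → ∃ v : Localization.AtPrime n ⧸ p₂.map (algebraMap B (Localization.AtPrime n)),
      Associated (v ^ m) (Ideal.Quotient.mk _ u)) :
    ∃ (f : Localization.AtPrime n) (ε : (Localization.AtPrime n)ˣ), u = ε * f ^ m := by
  have : IsIntegrallyClosed (Localization.AtPrime n) :=
    isIntegrallyClosed_of_isLocalization _ n.primeCompl (Ideal.primeCompl_le_nonZeroDivisors n)
  have hinj : Function.Injective (algebraMap B (Localization.AtPrime n)) :=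
    IsLocalization.injective _ (Ideal.primeCompl_le_nonZeroDivisors n)
  have hπ0 : algebraMap B (Localization.AtPrime n) w ≠ 0 := by
    intro h
    exact hw0 (hinj (by rw [h, map_zero]))
  have hle : p₁ ⊓ p₂ ≤ n := by
    rw [hinf, Ideal.span_le, Set.singleton_subset_iff]
    exact hwn
  by_cases h₁ : p₁ ≤ n
  · by_cases h₂ : p₂ ≤ n
    · obtain ⟨hP₁, hP₂, hi, hs, hd₁, hd₂⟩ :=
        node_local_data_atPrime hinf h₁₂ h₂₁ htr h₁ h₂
      exact Fermat.Agent.A2.H609.exists_unit_mul_pow_of_node hm _ _ hi hs (hu₁ h₁) (hu₂ h₂) H1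
        (H2₁ h₁) (H2₂ h₂)
    · obtain ⟨hP₁, hi, hd₁⟩ :=
        smooth_local_data (Localization.AtPrime n) hinf h₁ hn₁ h₂
      exact Fermat.Agent.A2.H609.exists_unit_mul_pow_of_smooth hm hπ0 _ hi (hu₁ h₁) H1 (H2₁ h₁)
  · have h₂ : p₂ ≤ n := by
      rcases (Ideal.IsPrime.inf_le inferInstance).mp hle with h | h
      · exact absurd h h₁
      · exact h
    have hinf' : p₂ ⊓ p₁ = Ideal.span {w} := by rw [inf_comm]; exact hinf
    obtain ⟨hP₂, hi, hd₂⟩ :=
      smooth_local_data (Localization.AtPrime n) hinf' h₂ hn₂ h₁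
    exact Fermat.Agent.A2.H609.exists_unit_mul_pow_of_smooth hm hπ0 _ hi (hu₂ h₂) H1 (H2₂ h₂)

end Fermat.Agent.A2.H372
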