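import Fermat.Agent.A2.H372.Radical

/-!
# A2 / MOD3 (abstract) : semilinear Kronecker congruences from the rational ones (helper372)

`KronCong q α β P₁ P₂` (`Fermat.Agent.A2.H372.Transversal`) is the SEMILINEAR form of the
Kronecker congruences, the one which holds over an arbitrary base `R` (`R = P ∩ E`, residue
field perfect of characteristic `q`):

  `∀ a, ∃ a', β a - (α a') ^ q ∈ P₁`   and   `∀ a, ∃ a', α a - (β a') ^ q ∈ P₂`.

The modular input is the LINEAR congruence `β a ≡ (α a)^q mod P₁`, `α a ≡ (β a)^q mod P₂` for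
the `ℤ_(q)`-rational elements `a ∈ A₀` only (Frobenius on `ℤ_(q)((t))`, `S37/H340`, `H400`,
`A2/H528/FrobCong`).  This file bridges the two:

* `KronCong.of_span` : if `α β : A →ₐ[R] B`, `q ∈ P₁ ⊓ P₂`, every `r : R` is a `q`-th power
  modulo `P₁ ⊓ P₂` (perfect residue field) and `A` is spanned over `R` by a set `A₀` on which
  the linear congruences hold (`B_M = R · B_{M,0}`, base change of the good model at level `M`),
  then `KronCong q α β P₁ P₂`.  The SAME `a'` works for both congruences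
  (`KronCong.exists_common_of_span`).
* `pow_sum_sub_sum_pow_mem` : freshman's dream modulo an ideal containing the prime `q`.
-/

set_option autoImplicit false

namespace Fermat.Agent.A2.H372

open Ideal

variable {A B : Type*} [CommRing A] [CommRing B]

/-- Freshman's dream modulo an ideal containing the prime `q`. -/
theorem add_pow_sub_mem_of_prime_mem {q : ℕ} (hq : q.Prime) {I : Ideal B} (hqI : (q : B) ∈ I)
    (x y : B) : (x + y) ^ q - (x ^ q + y ^ q) ∈ I := by
  obtain ⟨r, hr⟩ := exists_add_pow_prime_eq hq x y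
  rw [hr]
  have : x ^ q + y ^ q + (q : B) * x * y * r - (x ^ q + y ^ q) = (q : B) * (x * y * r) := by ring
  rw [this]
  exact I.mul_mem_right _ hqI

/-- Both semilinear Kronecker congruences for `a`, with a common witness `a'`. -/
def KronWitness (q : ℕ) (α β : A →+* B) (P₁ P₂ : Ideal B) (a : A) : Prop :=
  ∃ a' : A, β a - (α a') ^ q ∈ P₁ ∧ α a - (β a') ^ q ∈ P₂

theorem KronWitness.add {q : ℕ} (hq : q.Prime) {α β : A →+* B} {P₁ P₂ : Ideal B}
    (hq₁ : (q : B) ∈ P₁) (hq₂ : (q : B) ∈ P₂) {a b : A}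
    (ha : KronWitness q α β P₁ P₂ a) (hb : KronWitness q α β P₁ P₂ b) :
    KronWitness q α β P₁ P₂ (a + b) := by
  obtain ⟨a', ha₁, ha₂⟩ := ha
  obtain ⟨b', hb₁, hb₂⟩ := hb
  refine ⟨a' + b', ?_, ?_⟩
  · have h := add_pow_sub_mem_of_prime_mem hq hq₁ (α a') (α b')
    have key : β (a + b) - (α (a' + b')) ^ q
        = (β a - (α a') ^ q) + (β b - (α b') ^ q)
          - ((α a' + α b') ^ q - ((α a') ^ q + (α b') ^ q)) := by
      rw [map_add, map_add]; ring
    rw [key]
    exact P₁.sub_mem (P₁.add_mem ha₁ hb₁) h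
  · have h := add_pow_sub_mem_of_prime_mem hq hq₂ (β a') (β b')
    have key : α (a + b) - (β (a' + b')) ^ q
        = (α a - (β a') ^ q) + (α b - (β b') ^ q)
          - ((β a' + β b') ^ q - ((β a') ^ q + (β b') ^ q)) := by
      rw [map_add, map_add]; ring
    rw [key]
    exact P₂.sub_mem (P₂.add_mem ha₂ hb₂) h

theorem KronWitness.zero {q : ℕ} (hq : q ≠ 0) {α β : A →+* B} {P₁ P₂ : Ideal B} :
    KronWitness q α β P₁ P₂ 0 :=
  ⟨0, by simp [hq], by simp [hq]⟩

section Span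

variable {R : Type*} [CommRing R] [Algebra R A] [Algebra R B]

theorem KronWitness.smul {q : ℕ} {α β : A →ₐ[R] B} {P₁ P₂ : Ideal B}
    (hperf : ∀ r : R, ∃ s : R, algebraMap R B (r - s ^ q) ∈ P₁ ⊓ P₂) (r : R) {a : A}
    (ha : KronWitness q (α : A →+* B) (β : A →+* B) P₁ P₂ a) :
    KronWitness q (α : A →+* B) (β : A →+* B) P₁ P₂ (r • a) := by
  obtain ⟨a', ha₁, ha₂⟩ := ha
  obtain ⟨s, hs⟩ := hperf r
  refine ⟨s • a', ?_, ?_⟩
  · have key : (β : A →+* B) (r • a) - ((α : A →+* B) (s • a')) ^ q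
        = algebraMap R B r * ((β : A →+* B) a - ((α : A →+* B) a') ^ q)
          + algebraMap R B (r - s ^ q) * ((α : A →+* B) a') ^ q := by
      rw [RingHom.coe_coe, RingHom.coe_coe, map_smul, map_smul, Algebra.smul_def,
        Algebra.smul_def, map_sub, map_pow]
      ring
    rw [key]
    exact P₁.add_mem (P₁.mul_mem_left _ ha₁) (P₁.mul_mem_right _ hs.1)
  · have key : (α : A →+* B) (r • a) - ((β : A →+* B) (s • a')) ^ q
        = algebraMap R B r * ((α : A →+* B) a - ((β : A →+* B) a') ^ q)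
          + algebraMap R B (r - s ^ q) * ((β : A →+* B) a') ^ q := by
      rw [RingHom.coe_coe, RingHom.coe_coe, map_smul, map_smul, Algebra.smul_def,
        Algebra.smul_def, map_sub, map_pow]
      ring
    rw [key]
    exact P₂.add_mem (P₂.mul_mem_left _ ha₂) (P₂.mul_mem_right _ hs.2)

/-- **Semilinear Kronecker with a common witness**, from the linear congruences on a spanning
set. -/
theorem KronCong.exists_common_of_span {q : ℕ} (hq : q.Prime) (α β : A →ₐ[R] B)
    {P₁ P₂ : Ideal B} (hq₁ : (q : B) ∈ P₁) (hq₂ : (q : B) ∈ P₂)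
    (hperf : ∀ r : R, ∃ s : R, algebraMap R B (r - s ^ q) ∈ P₁ ⊓ P₂)
    (A₀ : Set A) (hspan : Submodule.span R A₀ = ⊤)
    (h₁ : ∀ a ∈ A₀, β a - (α a) ^ q ∈ P₁) (h₂ : ∀ a ∈ A₀, α a - (β a) ^ q ∈ P₂) (a : A) :
    KronWitness q (α : A →+* B) (β : A →+* B) P₁ P₂ a := by
  have ha : a ∈ Submodule.span R A₀ := by rw [hspan]; trivial
  induction ha using Submodule.span_induction with
  | mem x hx => exact ⟨x, h₁ x hx, h₂ x hx⟩
  | zero => exact KronWitness.zero hq.ne_zero
  | add x y _ _ hx hy => exact hx.add hq hq₁ hq₂ hy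
  | smul r x _ hx => exact hx.smul hperf r

/-- **MOD3 (abstract).**  The semilinear Kronecker congruences over `R` from the linear ones on
a spanning set of `ℤ_(q)`-rational elements. -/
theorem KronCong.of_span {q : ℕ} (hq : q.Prime) (α β : A →ₐ[R] B)
    {P₁ P₂ : Ideal B} (hq₁ : (q : B) ∈ P₁) (hq₂ : (q : B) ∈ P₂)
    (hperf : ∀ r : R, ∃ s : R, algebraMap R B (r - s ^ q) ∈ P₁ ⊓ P₂)
    (A₀ : Set A) (hspan : Submodule.span R A₀ = ⊤)
    (h₁ : ∀ a ∈ A₀, β a - (α a) ^ q ∈ P₁) (h₂ : ∀ a ∈ A₀, α a - (β a) ^ q ∈ P₂) :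
    KronCong q (α : A →+* B) (β : A →+* B) P₁ P₂ where
  cong₁ a := by
    obtain ⟨a', h, -⟩ := KronCong.exists_common_of_span hq α β hq₁ hq₂ hperf A₀ hspan h₁ h₂ a
    exact ⟨a', h⟩
  cong₂ a := by
    obtain ⟨a', -, h⟩ := KronCong.exists_common_of_span hq α β hq₁ hq₂ hperf A₀ hspan h₁ h₂ a
    exact ⟨a', h⟩

/-- **M5 from the level-`M` inputs** (`SSChart.transversal`): linear Kronecker congruences on a
spanning set of rational elements, perfect residue field, `α` onto the first branch, first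
branch Dedekind  ⟹  `P₁ + P₂` is radical. -/
theorem sup_isRadical_of_span {q : ℕ} (hq : q.Prime) (α β : A →ₐ[R] B)
    {P₁ P₂ : Ideal B} (hq₁ : (q : B) ∈ P₁) (hq₂ : (q : B) ∈ P₂)
    (hperf : ∀ r : R, ∃ s : R, algebraMap R B (r - s ^ q) ∈ P₁ ⊓ P₂)
    (A₀ : Set A) (hspan : Submodule.span R A₀ = ⊤)
    (h₁ : ∀ a ∈ A₀, β a - (α a) ^ q ∈ P₁) (h₂ : ∀ a ∈ A₀, α a - (β a) ^ q ∈ P₂)
    (hα : ∀ b : B, ∃ a : A, b - α a ∈ P₁)
    [IsDedekindDomain (A ⧸ Ideal.comap (α : A →+* B) P₁)] :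
    (P₁ ⊔ P₂).IsRadical :=
  (KronCong.of_span hq α β hq₁ hq₂ hperf A₀ hspan h₁ h₂).sup_isRadical_of_isDedekindDomain
    hq.two_le hα

end Span

end Fermat.Agent.A2.H372
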